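import Fermat.Agent.IdealLandauCount.Tail
import Fermat.Agent.PiltzDivisor.Line
import Fermat.Agent.PiltzDivisor.Mellin
import Fermat.Agent.SiegelWalfisz.Perron
import Fermat.Agent.CycloGrowth.Residue

/-!
# Landau's count of ideals, uniform in the field

In degree at most `n` the ideals of norm at most `x` number
`res x + O_n (|d| ^ (1/(2n)) x ^ (1 - 1/(4n)))`: the smoothed Perron formula, the line moved to
`re s = 1 - 1/(2n)`, and one difference with step `x ^ (1 - 1/(4n)) / 2`.
-/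

set_option autoImplicit false
set_option linter.style.haveILetI false

noncomputable section

universe u

open NumberField Module Complex Filter MeasureTheory
open FA.FamilyZeroDensity (pt)
open FA.PiltzDivisor (lineInt lineInt_diff lineInt_shift integrable_line line_integrable_inv_sq
  one_add_sq_le_normSq upPair_inversion)
open FA.SiegelWalfisz (kernelMul smoothSum smoothSum_eq)
open scoped Topology Real

namespace FA.IdealLandauCount

variable (K : Type u) [Field K] [NumberField K]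

/-- The number of ideals of norm `m`. -/
def idealTerm (m : ℕ) : ℝ := Nat.card {I : Ideal (𝓞 K) // Ideal.absNorm I = m}

/-- The number of ideals with norm in `[1, x]`. -/
def idealSum (x : ℝ) : ℝ := ∑ m ∈ Finset.Icc 1 ⌊x⌋₊, idealTerm K m

/-- `∑_{m ≤ x} a m (x - m)`. -/
def idealRiesz (x : ℝ) : ℝ := ∑ m ∈ Finset.Icc 1 ⌊x⌋₊, idealTerm K m * (x - m)

theorem idealTerm_nonneg (m : ℕ) : 0 ≤ idealTerm K m := Nat.cast_nonneg _

theorem idealSum_nonneg (x : ℝ) : 0 ≤ idealSum K x :=
  Finset.sum_nonneg fun m _ => idealTerm_nonneg K m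

theorem idealSum_mono {y z : ℝ} (hyz : y ≤ z) : idealSum K y ≤ idealSum K z :=
  Finset.sum_le_sum_of_subset_of_nonneg (Finset.Icc_subset_Icc_right (Nat.floor_mono hyz))
    fun m _ _ => idealTerm_nonneg K m

theorem idealRiesz_sub {y z : ℝ} (hy : 0 ≤ y) (hyz : y ≤ z) :
    (z - y) * idealSum K y ≤ idealRiesz K z - idealRiesz K y ∧
      idealRiesz K z - idealRiesz K y ≤ (z - y) * idealSum K z := by
  have hsub : Finset.Icc 1 ⌊y⌋₊ ⊆ Finset.Icc 1 ⌊z⌋₊ :=
    Finset.Icc_subset_Icc_right (Nat.floor_mono hyz)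
  have hin : ∀ m ∈ Finset.Icc 1 ⌊z⌋₊, (m : ℝ) ≤ z := fun m hm =>
    (Nat.cast_le.2 (Finset.mem_Icc.1 hm).2).trans (Nat.floor_le (hy.trans hyz))
  have hout : ∀ m ∈ Finset.Icc 1 ⌊z⌋₊ \ Finset.Icc 1 ⌊y⌋₊, y < m := fun m hm => by
    simp only [Finset.mem_sdiff, Finset.mem_Icc, not_and, not_le] at hm
    exact Nat.lt_of_floor_lt (hm.2 hm.1.1)
  have e : idealRiesz K z - idealRiesz K y = (z - y) * idealSum K y +
      ∑ m ∈ Finset.Icc 1 ⌊z⌋₊ \ Finset.Icc 1 ⌊y⌋₊, idealTerm K m * (z - m) := by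
    rw [idealRiesz, idealRiesz, idealSum, Finset.mul_sum, ← Finset.sum_sdiff hsub, add_sub_assoc,
      ← Finset.sum_sub_distrib, add_comm]
    congr 1
    exact Finset.sum_congr rfl fun m _ => by ring
  refine ⟨?_, ?_⟩
  · rw [e]
    exact le_add_of_nonneg_right (Finset.sum_nonneg fun m hm => mul_nonneg (idealTerm_nonneg K m)
      (sub_nonneg.2 (hin m (Finset.mem_sdiff.1 hm).1)))
  · rw [e, show idealSum K z = idealSum K y +
      ∑ m ∈ Finset.Icc 1 ⌊z⌋₊ \ Finset.Icc 1 ⌊y⌋₊, idealTerm K m by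
        rw [idealSum, idealSum, ← Finset.sum_sdiff hsub, add_comm], mul_add, add_le_add_iff_left,
      Finset.mul_sum]
    refine Finset.sum_le_sum fun m hm => ?_
    rw [mul_comm (z - y)]
    exact mul_le_mul_of_nonneg_left (by linarith [hout m hm]) (idealTerm_nonneg K m)

variable {K} {n : ℕ} (hn : 1 ≤ n) (hK : finrank ℚ K ≤ n)

include hn in
theorem abscissa_bounds : (1 : ℝ) / 2 ≤ 1 - 1 / (2 * n) ∧ (1 : ℝ) - 1 / (2 * n) ≤ 1 := by
  have hn' : (1 : ℝ) ≤ n := Nat.one_le_cast.2 hn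
  have := div_le_div_of_nonneg_left zero_le_one two_pos (show (2 : ℝ) ≤ 2 * n by linarith)
  exact ⟨by linarith, sub_le_self _ (by positivity)⟩

include hn in
theorem differentiableAt_tail_right (w : ℂ) (hw : 1 - 1 / (2 * n : ℝ) ≤ w.re) :
    DifferentiableAt ℂ (countTail K) w :=
  differentiableAt_countTail K (by linarith [(abscissa_bounds hn).1])

include hn hK in
theorem norm_tail_line (u v : ℝ) (hu : 1 - 1 / (2 * n : ℝ) ≤ u) (hu2 : u ≤ 2) :
    ‖countTail K ((u : ℂ) + v * I)‖ ≤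
      tailConst n * discPow K n * (1 + |v|) ^ ((1 / 2 : ℝ) - 2) :=
  norm_countTail_le hn hK hu hu2 v

include hn hK in
/-- **The Perron formula.** -/
theorem idealRiesz_eq {x : ℝ} (hx : 1 < x) :
    (idealRiesz K x : ℂ) = (dedekindZeta_residue K : ℂ) / 2 * ((x ^ 2 - 1 : ℝ) : ℂ) +
      lineInt (countTail K) (1 - 1 / (2 * n)) x := by
  have hx0 : 0 < x := by linarith
  have hc2 : 1 - 1 / (2 * n : ℝ) ≤ 2 := by linarith [(abscissa_bounds hn).2]
  obtain ⟨w, hw⟩ : ∃ w : ℝ → ℂ, w = fun v : ℝ => ((2 : ℝ) : ℂ) + (v : ℂ) * I := ⟨_, rfl⟩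
  have hwre : ∀ v, (w v).re = 2 := fun v => by simp [hw]
  have hne : ∀ v, w v - 1 ≠ 0 ∧ w v + 1 ≠ 0 := fun v => by
    refine ⟨?_, ?_⟩ <;> intro h <;> have h' := congrArg Complex.re h <;> norm_num [hwre] at h'
  have hperron := smoothSum_eq (f := fun m => (idealTerm K m : ℂ)) (F := dedekindZeta K)
    hx0 one_lt_two (by
      simpa [idealTerm] using FA.CycloGrowth.lseriesSummable_ideal K
        (s := ((2 : ℝ) : ℂ)) (by simp))
    (fun s _ => by simp [dedekindZeta, idealTerm])
  have hS : (idealRiesz K x : ℂ) = (x : ℂ) * smoothSum (fun m => (idealTerm K m : ℂ)) x := by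
    rw [smoothSum, Finset.mul_sum, idealRiesz, ofReal_sum]
    refine Finset.sum_congr rfl fun m _ => ?_
    have : (x : ℂ) ≠ 0 := ofReal_ne_zero.2 hx0.ne'
    push_cast
    field_simp
  obtain ⟨T0, hT0⟩ : ∃ T : ℝ → ℂ, T = fun v => (dedekindZeta_residue K : ℂ) / 2 *
      ((x : ℂ) ^ (w v + 1) * (1 / (w v - 1) - 1 / (w v + 1))) := ⟨_, rfl⟩
  have hwc : Continuous w := hw ▸ by fun_prop
  have hcp : Continuous fun v => (x : ℂ) ^ (w v + 1) :=
    (hwc.add continuous_const).const_cpow (Or.inl (ofReal_ne_zero.2 hx0.ne'))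
  have hsq : ∀ v : ℝ, 1 + v ^ 2 ≤ ‖w v - 1‖ ^ 2 ∧ 1 + v ^ 2 ≤ ‖w v + 1‖ ^ 2 := fun v => by
    rw [hw]
    refine ⟨?_, ?_⟩
    · rw [show ((2 : ℝ) : ℂ) + (v : ℂ) * I - 1 = ((1 : ℝ) : ℂ) + (v : ℂ) * I by push_cast; ring]
      exact one_add_sq_le_normSq v le_rfl
    · rw [show ((2 : ℝ) : ℂ) + (v : ℂ) * I + 1 = ((3 : ℝ) : ℂ) + (v : ℂ) * I by push_cast; ring]
      exact one_add_sq_le_normSq v (by norm_num)
  have hi0 : Integrable T0 := by
    refine line_integrable_inv_sq
      (C := ‖(dedekindZeta_residue K : ℂ) / 2‖ * x ^ (3 : ℝ) * 2)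
      (hT0 ▸ continuous_const.mul (hcp.mul
        ((continuous_const.div (hwc.sub continuous_const) fun v => (hne v).1).sub
          (continuous_const.div (hwc.add continuous_const) fun v => (hne v).2)))) fun v => ?_
    rw [hT0, norm_mul, norm_mul, norm_cpow_eq_rpow_re_of_pos hx0, add_re, hwre, one_re,
      show (2 : ℝ) + 1 = 3 by norm_num, div_sub_div _ _ (hne v).1 (hne v).2,
      show (1 : ℂ) * (w v + 1) - (w v - 1) * 1 = 2 by ring, norm_div (2 : ℂ), norm_mul,
      Complex.norm_two, ← mul_assoc, mul_div_assoc']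
    refine div_le_div_of_nonneg_left (by positivity) (by positivity) ?_
    rw [← pow_le_pow_iff_left₀ (by positivity) (by positivity) two_ne_zero, mul_pow,
      sq (1 + v ^ 2)]
    exact mul_le_mul (hsq v).1 (hsq v).2 (by positivity) (by positivity)
  have hiG := integrable_line (differentiableAt_tail_right hn) le_rfl (norm_tail_line hn hK) hx0
    hc2 le_rfl
  have hint : ∫ v : ℝ, (x : ℂ) * kernelMul (dedekindZeta K) x (((2 : ℝ) : ℂ) + v * I) =
      (∫ v : ℝ, T0 v) + ∫ v : ℝ, (x : ℂ) ^ (((2 : ℝ) : ℂ) + (v : ℂ) * I + 1) *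
        countTail K (((2 : ℝ) : ℂ) + (v : ℂ) * I) := by
    rw [← integral_add hi0 hiG]
    refine integral_congr_ae (Eventually.of_forall fun v => ?_)
    have hh := zeta_split K (show 1 < (w v).re by rw [hwre]; norm_num)
    simp only [hw] at hh
    simp only [hT0, kernelMul, hw]
    rw [cpow_add _ (1 : ℂ) (ofReal_ne_zero.2 hx0.ne'), cpow_one, mul_div_assoc, hh]
    ring
  rw [hS, hperron, mul_smul_comm, ← integral_const_mul, hint, smul_add, ← lineInt,
    lineInt_shift (differentiableAt_tail_right hn) le_rfl (norm_tail_line hn hK) hx.le hc2]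
  congr 1
  rw [hT0]
  simp only [hw]
  rw [integral_const_mul, ← mul_smul_comm, upPair_inversion hx]

include hn hK in
theorem idealRiesz_diff {y h : ℝ} (hy : 1 < y) (hh : 0 < h) (hhy : h ≤ y) :
    |idealRiesz K (y + h) - idealRiesz K y -
        dedekindZeta_residue K / 2 * ((y + h) ^ 2 - y ^ 2)| ≤
      32 * (tailConst n * discPow K n) * h * (y ^ (1 - 1 / (2 * n) : ℝ) * (y / h)) := by
  have hC : 0 ≤ tailConst n * discPow K n :=
    mul_nonneg (mul_nonneg (by positivity) (stripConst_pos n).le) (discPow_pos K n).le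
  obtain ⟨L, hL⟩ : ∃ L, L = lineInt (countTail K) (1 - 1 / (2 * n)) := ⟨_, rfl⟩
  have hre : ∀ z, 1 < z →
      idealRiesz K z = dedekindZeta_residue K / 2 * (z ^ 2 - 1) + (L z).re := fun z hz => by
    have h := congrArg Complex.re (idealRiesz_eq hn hK hz)
    rw [← hL, Complex.ofReal_re, add_re,
      show (dedekindZeta_residue K : ℂ) / 2 * ((z ^ 2 - 1 : ℝ) : ℂ) =
        ((dedekindZeta_residue K / 2 * (z ^ 2 - 1) : ℝ) : ℂ) by push_cast; ring,
      Complex.ofReal_re] at h
    exact h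
  have hd := lineInt_diff (differentiableAt_tail_right hn) le_rfl (norm_tail_line hn hK)
    (abscissa_bounds hn).1 (abscissa_bounds hn).2 (by norm_num) hC hy.le hh hhy
  rw [← hL] at hd
  rw [hre _ (by linarith), hre _ hy,
    show dedekindZeta_residue K / 2 * ((y + h) ^ 2 - 1) + (L (y + h)).re -
      (dedekindZeta_residue K / 2 * (y ^ 2 - 1) + (L y).re) -
        dedekindZeta_residue K / 2 * ((y + h) ^ 2 - y ^ 2) = (L (y + h) - L y).re by
      rw [sub_re]; ring]
  refine (Complex.abs_re_le_norm _).trans (hd.trans (le_of_eq ?_))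
  rw [show 2 * (1 / 2 : ℝ) = 1 by norm_num, Real.rpow_one]
  ring

/-- The constant of the count. -/
def sumConst (n : ℕ) : ℝ := 64 * tailConst n + 6 * stripConst n

theorem sumConst_nonneg (n : ℕ) : 0 ≤ sumConst n := by
  have := (stripConst_pos n).le
  unfold sumConst tailConst
  positivity

include hn hK in
/-- **The two sides, with one step.** -/
theorem idealSum_sides {x : ℝ} (hx : 1 < x) :
    idealSum K x - dedekindZeta_residue K * x ≤
        sumConst n * discPow K n * x ^ (1 - 1 / (4 * n) : ℝ) ∧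
      (2 < x → dedekindZeta_residue K * x - idealSum K x ≤
        sumConst n * discPow K n * x ^ (1 - 1 / (4 * n) : ℝ)) := by
  have hn' : (1 : ℝ) ≤ n := Nat.one_le_cast.2 hn
  have hx0 : 0 < x := by linarith
  obtain ⟨e, he⟩ : ∃ e, e = (1 - 1 / (4 * n) : ℝ) := ⟨_, rfl⟩
  obtain ⟨c, hc⟩ : ∃ c, c = (1 - 1 / (2 * n) : ℝ) := ⟨_, rfl⟩
  have hc0 : 0 ≤ c := hc ▸ le_trans (by norm_num) (abscissa_bounds hn).1
  have he1 : e ≤ 1 := he ▸ sub_le_self _ (by positivity)
  have hce : c + (1 - e) = e := by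
    rw [hc, he]
    field_simp
    ring
  obtain ⟨h, hh⟩ : ∃ h, h = x ^ e / 2 := ⟨_, rfl⟩
  have hh0 : 0 < h := hh ▸ div_pos (Real.rpow_pos_of_pos hx0 e) two_pos
  have hhx : h ≤ x / 2 := by
    rw [hh]
    linarith [(Real.rpow_le_rpow_of_exponent_le hx.le he1).trans_eq (Real.rpow_one x)]
  obtain ⟨A, hA⟩ : ∃ A, A = tailConst n * discPow K n := ⟨_, rfl⟩
  have hA0 : 0 ≤ A := hA ▸
    mul_nonneg (mul_nonneg (by positivity) (stripConst_pos n).le) (discPow_pos K n).le
  have hres := mul_le_mul_of_nonneg_right (residue_le_strip hn hK) (Real.rpow_nonneg hx0.le e)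
  have hhalf : dedekindZeta_residue K * (h / 2) ≤
      6 * stripConst n * discPow K n * x ^ e := by
    refine le_trans (mul_le_mul_of_nonneg_left ?_ (dedekindZeta_residue_pos K).le) hres
    rw [hh]
    linarith [Real.rpow_nonneg hx0.le e]
  have hx1 : x ^ c * (x / h) = 2 * x ^ e := by
    rw [hh, show x / (x ^ e / 2) = 2 * (x / x ^ e) by field_simp]
    rw [show x / x ^ e = x ^ (1 - e) by rw [Real.rpow_sub hx0, Real.rpow_one], ← mul_left_comm,
      ← Real.rpow_add hx0, hce]
  have hB : sumConst n * discPow K n * x ^ e =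
      64 * A * x ^ e + 6 * stripConst n * discPow K n * x ^ e := by
    rw [hA, sumConst]; ring
  rw [← he, hB]
  refine ⟨?_, fun hx2 => ?_⟩
  · have h1 := (idealRiesz_sub K hx0.le (show x ≤ x + h by linarith)).1
    have h2 := (abs_le.1 (idealRiesz_diff hn hK hx hh0 (by linarith))).2
    rw [← hA, ← hc, hx1] at h2
    rw [add_sub_cancel_left] at h1
    refine le_of_mul_le_mul_left ?_ hh0
    linarith [mul_le_mul_of_nonneg_left hhalf hh0.le]
  · obtain ⟨y, hy⟩ : ∃ y, y = x - h := ⟨_, rfl⟩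
    have h1 := (idealRiesz_sub K (show 0 ≤ y by linarith) (show y ≤ x by linarith)).2
    have h2 := (abs_le.1 (idealRiesz_diff hn hK (y := y) (show 1 < y by linarith) hh0
      (by linarith))).1
    rw [← hA, ← hc, show y + h = x by rw [hy]; ring] at h2
    rw [show x - y = h by rw [hy]; ring] at h1
    have h3 : y ^ c * (y / h) ≤ 2 * x ^ e := by
      rw [← hx1]
      have : 0 ≤ y := by linarith
      gcongr <;> linarith
    refine le_of_mul_le_mul_left ?_ hh0
    have h4 := mul_le_mul_of_nonneg_left h3 (mul_nonneg (mul_nonneg (by norm_num : (0 : ℝ) ≤ 32)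
      hA0) hh0.le)
    subst hy
    linarith [mul_le_mul_of_nonneg_left hhalf hh0.le]

include hn hK in
/-- **Landau's count, uniform in the field.** -/
theorem abs_idealSum_sub_le {x : ℝ} (hx : 1 ≤ x) :
    |idealSum K x - dedekindZeta_residue K * x| ≤
      (3 * sumConst n + 30 * stripConst n) * discPow K n * x ^ (1 - 1 / (4 * n) : ℝ) := by
  have hn' : (1 : ℝ) ≤ n := Nat.one_le_cast.2 hn
  obtain ⟨e, he⟩ : ∃ e, e = (1 - 1 / (4 * n) : ℝ) := ⟨_, rfl⟩
  have he0 : 0 ≤ e := by
    rw [he, sub_nonneg, div_le_one (by positivity)]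
    linarith
  have he1 : e ≤ 1 := he ▸ sub_le_self _ (by positivity)
  rw [← he]
  have hxe : 1 ≤ x ^ e := Real.one_le_rpow hx he0
  have hY := (stripConst_pos n).le
  have hB := sumConst_nonneg n
  have hq := (discPow_pos K n).le
  have hres := residue_le_strip hn hK
  have hres0 := (dedekindZeta_residue_pos K).le
  have hmore : sumConst n * discPow K n * x ^ e ≤
      (3 * sumConst n + 30 * stripConst n) * discPow K n * x ^ e := by
    gcongr
    linarith
  rcases le_or_gt x 2 with hsmall | hlarge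
  · have h3 := (idealSum_sides hn hK (x := 3) (by norm_num)).1
    rw [← he] at h3
    have h3e : (3 : ℝ) ^ e ≤ 3 := Real.rpow_le_self_of_one_le (by norm_num) he1
    have a1 := mul_le_mul_of_nonneg_left h3e (mul_nonneg hB hq)
    have a2 := idealSum_mono K (show x ≤ 3 by linarith)
    have a3 := idealSum_nonneg K x
    have a4 := mul_le_mul_of_nonneg_left hsmall hres0
    have a5 := mul_nonneg hres0 (zero_le_one.trans hx)
    have a6 := le_mul_of_one_le_right
      (show 0 ≤ (3 * sumConst n + 30 * stripConst n) * discPow K n by positivity) hxe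
    refine abs_le.2 ⟨?_, ?_⟩
    · linarith [mul_nonneg hB hq, mul_nonneg hY hq]
    · linarith [mul_nonneg hB hq, mul_nonneg hY hq]
  · obtain ⟨h1, h2⟩ := idealSum_sides hn hK (show 1 < x by linarith)
    rw [← he] at h1 h2
    exact abs_le.2 ⟨by linarith [h2 hlarge], h1.trans hmore⟩

end FA.IdealLandauCount

end
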