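import Fermat.Agent.DedekindConvexity.Main
import Fermat.Agent.DedekindPrimeIdeals.ZetaBound
import Mathlib.Analysis.Complex.RemovableSingularity
import Mathlib.Analysis.Complex.AbsMax

/-!
# What is left of `ζ_K w / (w (w + 1))` without the pole

In degree at most `n` it is `O_n (|d| ^ (1/(2n)) (1 + |im w|) ^ (-3/2))` for
`1 - 1/(2n) ≤ re w ≤ 2`, by Rademacher's bound and the maximum principle around `w = 1`.
-/

set_option autoImplicit false
set_option linter.style.haveILetI false

noncomputable section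

universe u

open NumberField Module Complex Filter Topology Set Metric
open FA.HeckeBS FA.FamilyZeroDensity FA.DedekindConvexity
open FA.DedekindZeroCount (cleared cleared_spec differentiable_cleared)
open scoped Real

namespace FA.IdealLandauCount

variable (K : Type u) [Field K] [NumberField K]

/-- The constant of the strip. -/
def stripConst (n : ℕ) : ℝ := Real.exp (8 * n + 29) ^ n

/-- `|d| ^ (1/(2n))`. -/
def discPow (n : ℕ) : ℝ := ((discr K).natAbs : ℝ) ^ (1 / (2 * n) : ℝ)

theorem one_le_discPow (n : ℕ) : 1 ≤ discPow K n :=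
  Real.one_le_rpow (Nat.one_le_cast.2 (Int.natAbs_pos.2 (discr_ne_zero K))) (by positivity)

theorem discPow_pos (n : ℕ) : 0 < discPow K n := zero_lt_one.trans_le (one_le_discPow K n)

theorem stripConst_pos (n : ℕ) : 0 < stripConst n := pow_pos (Real.exp_pos _) n

variable {K} {n : ℕ} (hn : 1 ≤ n) (hK : finrank ℚ K ≤ n)

include hn hK in
theorem norm_cleared_le {u : ℝ} (hu : 1 - 1 / (2 * n : ℝ) ≤ u) (hu2 : u ≤ 2) (v : ℝ) :
    ‖cleared K (pt u v)‖ ≤ 6 * stripConst n * discPow K n * (1 + |v|) ^ (3 / 2 : ℝ) := by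
  obtain ⟨P, hP⟩ : ∃ P, P = |v| + 3 := ⟨_, rfl⟩
  have hP1 : 1 ≤ P := by rw [hP]; linarith [abs_nonneg v]
  have hn' : (1 : ℝ) ≤ n := Nat.one_le_cast.2 hn
  obtain ⟨ε, hε⟩ : ∃ ε, ε = 1 / (4 * n : ℝ) := ⟨_, rfl⟩
  have hε0 : 0 < ε := hε ▸ by positivity
  have hε1 : ε ≤ 1 / 4 := hε ▸ (div_le_div_of_nonneg_left zero_le_one (by norm_num) (by linarith))
  have hhalf : 1 / (2 * n : ℝ) = 2 * ε := by rw [hε]; field_simp; ring
  have he : eulerConst (1 + ε) ≤ 8 * n + 4 := by
    refine (FA.DedekindPIT.eulerConst_le (by linarith)).trans (le_of_eq ?_)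
    rw [hε, add_sub_cancel_left]
    field_simp
    ring
  suffices h : ‖cleared K (pt u v)‖ ≤ stripConst n * discPow K n * P ^ (3 / 2 : ℝ) by
    refine h.trans ?_
    rw [show 6 * stripConst n * discPow K n * (1 + |v|) ^ (3 / 2 : ℝ) =
      stripConst n * discPow K n * (6 * (1 + |v|) ^ (3 / 2 : ℝ)) by ring]
    refine mul_le_mul_of_nonneg_left ?_ (mul_pos (stripConst_pos n) (discPow_pos K n)).le
    refine (Real.rpow_le_rpow (by linarith) (show P ≤ 3 * (1 + |v|) by
      rw [hP]; linarith [abs_nonneg v]) (by norm_num)).trans ?_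
    rw [Real.mul_rpow (by norm_num) (by positivity)]
    refine mul_le_mul_of_nonneg_right ?_ (by positivity)
    rw [show (3 / 2 : ℝ) = 1 + 1 / 2 by norm_num, Real.rpow_add (by norm_num), Real.rpow_one,
      ← Real.sqrt_eq_rpow]
    have : Real.sqrt 3 ≤ 2 := Real.sqrt_le_iff.2 ⟨by norm_num, by norm_num⟩
    linarith
  have hY : ∀ {a : ℝ}, a ≤ 8 * n + 29 → Real.exp a ^ finrank ℚ K ≤ stripConst n := fun {a} ha =>
    (pow_le_pow_left₀ (Real.exp_pos _).le (Real.exp_le_exp.2 ha) _).trans
      (pow_le_pow_right₀ (Real.one_le_exp (by positivity)) hK)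
  rcases le_or_gt u (1 + ε) with hle | hgt
  · refine (norm_cleared_convexity K hε0 hε1 (by linarith) hle v).trans ?_
    have hd : (1 : ℝ) ≤ ((discr K).natAbs : ℝ) :=
      Nat.one_le_cast.2 (Int.natAbs_pos.2 (discr_ne_zero K))
    have h1 : conductorAt K v ^ ((1 + ε - u) / 2) ≤ discPow K n * P ^ (1 / 2 : ℝ) := by
      have hb : conductorAt K v ≤ ((discr K).natAbs : ℝ) * P ^ n := by
        rw [conductorAt, ← hP]
        exact mul_le_mul_of_nonneg_left (pow_le_pow_right₀ hP1 hK) (Nat.cast_nonneg _)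
      refine (Real.rpow_le_rpow (conductorAt_pos K v).le hb (by linarith)).trans
        ((Real.rpow_le_rpow_of_exponent_le (one_le_mul_of_one_le_of_one_le hd (one_le_pow₀ hP1))
          (show (1 + ε - u) / 2 ≤ 2 * ε by linarith)).trans ?_)
      rw [Real.mul_rpow (by positivity) (by positivity), discPow, hhalf,
        ← Real.rpow_natCast_mul (by linarith)]
      refine mul_le_mul_of_nonneg_left (le_of_eq ?_) (by positivity)
      congr 1
      rw [hε]
      field_simp
      ring
    rw [← hP]
    refine (mul_le_mul (mul_le_mul_of_nonneg_right (hY (by linarith)) (by linarith)) h1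
      (Real.rpow_nonneg (conductorAt_pos K v).le _)
      (mul_nonneg (stripConst_pos n).le (by linarith))).trans (le_of_eq ?_)
    rw [show (3 / 2 : ℝ) = 1 + 1 / 2 by norm_num, Real.rpow_add (by linarith), Real.rpow_one]
    ring
  · have hre : 1 < (pt u v).re := by rw [pt_re]; linarith
    rw [cleared_spec K hre, norm_mul, mul_assoc, mul_comm]
    refine mul_le_mul ((norm_dedekindZeta_bounds (K := K) hre).2.trans ?_) ?_ (norm_nonneg _)
      (stripConst_pos n).le
    · rw [Real.exp_nat_mul, pt_re]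
      refine hY ((FA.DedekindPIT.eulerConst_le (by linarith)).trans ?_)
      have := div_le_div_of_nonneg_left two_pos.le hε0 (show ε ≤ u - 1 by linarith)
      have h8 : 2 / ε = 8 * n := by rw [hε]; field_simp; ring
      linarith
    · refine le_trans ?_ (le_mul_of_one_le_left (Real.rpow_nonneg (by linarith) _)
        (one_le_discPow K n))
      refine le_trans ?_ (Real.self_le_rpow_of_one_le hP1 (by norm_num))
      refine (Complex.norm_le_abs_re_add_abs_im _).trans ?_
      rw [hP, sub_re, sub_im, pt_re, pt_im, one_re, one_im, sub_zero,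
        abs_of_pos (show 0 < u - 1 by linarith)]
      linarith

variable (K) in
theorem cleared_one : cleared K 1 = (dedekindZeta_residue K : ℂ) := by
  have h1 : Tendsto (fun s : ℝ => cleared K s) (𝓝[>] 1) (𝓝 (cleared K 1)) := by
    have := ((differentiable_cleared K).continuous.comp Complex.continuous_ofReal).tendsto 1
    simpa [Function.comp_def] using this.mono_left nhdsWithin_le_nhds
  refine tendsto_nhds_unique h1 ((tendsto_sub_one_mul_dedekindZeta_nhdsGT K).congr' ?_)
  filter_upwards [self_mem_nhdsWithin] with s hs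
  rw [cleared_spec K (by simpa using hs)]

include hn hK in
theorem residue_le_strip : dedekindZeta_residue K ≤ 6 * stripConst n * discPow K n := by
  have h := norm_cleared_le hn hK (u := 1) (sub_le_self _ (by positivity)) (by norm_num) 0
  rw [show pt 1 0 = 1 by simp [pt], cleared_one, Complex.norm_real, abs_zero, add_zero,
    Real.one_rpow, mul_one] at h
  exact (le_abs_self _).trans h

variable (K) in
/-- `(E w - E 1) / (w - 1)`. -/
def poleFree : ℂ → ℂ := dslope (cleared K) 1

variable (K) in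
theorem differentiable_poleFree : Differentiable ℂ (poleFree K) :=
  differentiableOn_univ.1 ((Complex.differentiableOn_dslope Filter.univ_mem).2
    (differentiable_cleared K).differentiableOn)

variable (K) in
theorem poleFree_of_ne {w : ℂ} (hw : w ≠ 1) :
    poleFree K w = (cleared K w - dedekindZeta_residue K) / (w - 1) := by
  rw [poleFree, dslope_of_ne _ hw, slope_def_field, cleared_one]

include hn hK in
theorem norm_poleFree_le {u : ℝ} (hu : 1 - 1 / (2 * n : ℝ) ≤ u) (hu2 : u ≤ 2) (v : ℝ) :
    ‖poleFree K (pt u v)‖ ≤ 96 * n * stripConst n * discPow K n * (1 + |v|) ^ (1 / 2 : ℝ) := by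
  obtain ⟨r, hr⟩ : ∃ r, r = 1 / (2 * n : ℝ) := ⟨_, rfl⟩
  have hn' : (1 : ℝ) ≤ n := Nat.one_le_cast.2 hn
  have hr0 : 0 < r := hr ▸ by positivity
  have hr1 : r ≤ 1 / 2 := hr ▸ (div_le_div_of_nonneg_left zero_le_one two_pos (by linarith))
  obtain ⟨B, hB⟩ : ∃ B, B = 6 * stripConst n * discPow K n := ⟨_, rfl⟩
  have hB0 : 0 < B := hB ▸ mul_pos (mul_pos (by norm_num) (stripConst_pos n)) (discPow_pos K n)
  -- away from `1`
  have hout : ∀ a b : ℝ, 1 - r ≤ a → a ≤ 2 → r ≤ ‖pt a b - 1‖ →
      ‖poleFree K (pt a b)‖ ≤ 4 * B / r * (1 + |b|) ^ (1 / 2 : ℝ) := fun a b ha ha2 hab => by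
    have hne : pt a b ≠ 1 := fun h => by rw [h, sub_self, norm_zero] at hab; linarith
    have hb : |b| ≤ ‖pt a b - 1‖ := by simpa using Complex.abs_im_le_norm (pt a b - 1)
    have hden : r * (1 + |b|) / 2 ≤ ‖pt a b - 1‖ := by
      have := mul_le_of_le_one_left (abs_nonneg b) (show r ≤ 1 by linarith)
      linarith
    rw [poleFree_of_ne K hne, norm_div]
    refine (div_le_div₀ (show 0 ≤ 2 * B * (1 + |b|) ^ (3 / 2 : ℝ) by positivity) ?_
      (by positivity) hden).trans (le_of_eq ?_)
    · refine (norm_sub_le _ _).trans ?_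
      have h1 := norm_cleared_le hn hK (hr ▸ ha) ha2 b
      have h2 := residue_le_strip hn hK
      rw [← hB] at h1 h2
      rw [Complex.norm_real, Real.norm_of_nonneg (dedekindZeta_residue_pos K).le]
      have := Real.one_le_rpow (show 1 ≤ 1 + |b| by linarith [abs_nonneg b])
        (show (0 : ℝ) ≤ 3 / 2 by norm_num)
      have := le_mul_of_one_le_right hB0.le this
      linarith
    · rw [show (3 / 2 : ℝ) = 1 / 2 + 1 by norm_num, Real.rpow_add_one (by positivity)]
      field_simp
      ring
  rw [← hr] at hu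
  rw [show 96 * (n : ℝ) * stripConst n * discPow K n = 8 * B / r by
    rw [hB, hr]; field_simp; ring]
  rcases le_or_gt r ‖pt u v - 1‖ with hle | hlt
  · refine (hout u v hu hu2 hle).trans (mul_le_mul_of_nonneg_right ?_ (by positivity))
    exact div_le_div_of_nonneg_right (by linarith) hr0.le
  refine le_trans ?_ (le_mul_of_one_le_right (by positivity)
    (Real.one_le_rpow (by linarith [abs_nonneg v]) (by norm_num)))
  refine Complex.norm_le_of_forall_mem_frontier_norm_le (U := ball (1 : ℂ) r) isBounded_ball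
    (differentiable_poleFree K).diffContOnCl (fun z hz => ?_)
    (subset_closure (by rwa [mem_ball, dist_eq_norm]))
  rw [frontier_ball _ hr0.ne', mem_sphere, dist_eq_norm] at hz
  have hz1 := (abs_le.1 ((Complex.abs_re_le_norm (z - 1)).trans_eq hz))
  have hz2 := (Complex.abs_im_le_norm (z - 1)).trans_eq hz
  simp only [sub_re, one_re] at hz1
  simp only [sub_im, one_im, sub_zero] at hz2
  have e : pt z.re z.im = z := Complex.ext (by simp) (by simp)
  have h := hout z.re z.im (by linarith) (by linarith) (by rw [e, hz])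
  rw [e] at h
  refine h.trans ((mul_le_mul_of_nonneg_left ((Real.rpow_le_self_of_one_le (by
    linarith [abs_nonneg z.im]) (by norm_num)).trans (show 1 + |z.im| ≤ 2 by linarith))
    (by positivity)).trans (le_of_eq (by ring)))

variable (K) in
/-- `ζ_K w / (w (w + 1))` without `res/2 (1/(w - 1) - 1/(w + 1))`. -/
def countTail (w : ℂ) : ℂ := (poleFree K w - dedekindZeta_residue K) / (w * (w + 1))

variable (K) in
theorem differentiableAt_countTail {w : ℂ} (hw : 0 < w.re) :
    DifferentiableAt ℂ (countTail K) w := by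
  refine ((differentiable_poleFree K w).sub_const _).div
    (differentiableAt_id.mul (differentiableAt_id.add_const 1)) (mul_ne_zero ?_ ?_)
  · intro h
    rw [h] at hw
    simp at hw
  · intro h
    have := congrArg Complex.re h
    simp at this
    linarith

variable (K) in
theorem zeta_split {w : ℂ} (hw : 1 < w.re) :
    dedekindZeta K w / (w * (w + 1)) =
      (dedekindZeta_residue K : ℂ) / 2 * (1 / (w - 1) - 1 / (w + 1)) + countTail K w := by
  have h1 : w ≠ 1 := fun h => by rw [h] at hw; simp at hw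
  have h0 : w ≠ 0 := fun h => by rw [h] at hw; simp at hw; linarith
  have a1 : w - 1 ≠ 0 := sub_ne_zero.2 h1
  have a2 : w + 1 ≠ 0 := fun h => by
    have := congrArg Complex.re h
    simp at this
    linarith
  rw [countTail, poleFree_of_ne K h1, cleared_spec K hw]
  field_simp
  ring

/-- The constant of the tail. -/
def tailConst (n : ℕ) : ℝ := 1000 * n * stripConst n

include hn hK in
theorem norm_countTail_le {u : ℝ} (hu : 1 - 1 / (2 * n : ℝ) ≤ u) (hu2 : u ≤ 2) (v : ℝ) :
    ‖countTail K (pt u v)‖ ≤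
      tailConst n * discPow K n * (1 + |v|) ^ ((1 / 2 : ℝ) - 2) := by
  have hn' : (1 : ℝ) ≤ n := Nat.one_le_cast.2 hn
  have hu0 : 1 / 2 ≤ u := by
    have := div_le_div_of_nonneg_left zero_le_one two_pos (show (2 : ℝ) ≤ 2 * n by linarith)
    linarith
  obtain ⟨w, hw⟩ : ∃ w, w = pt u v := ⟨_, rfl⟩
  have hwre : w.re = u := by rw [hw, pt_re]
  have hwim : w.im = v := by rw [hw, pt_im]
  have n0 : (1 + |v|) / 3 ≤ ‖w‖ := by
    have := Complex.re_le_norm w
    have := Complex.abs_im_le_norm w
    rw [hwim] at this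
    linarith
  have n1 : (1 + |v|) / 3 ≤ ‖w + 1‖ := by
    have := Complex.re_le_norm (w + 1)
    have h := Complex.abs_im_le_norm (w + 1)
    rw [add_re, one_re, hwre] at *
    rw [add_im, one_im, add_zero, hwim] at h
    linarith
  rw [← hw, countTail, norm_div, norm_mul]
  obtain ⟨B, hB⟩ : ∃ B, B = stripConst n * discPow K n := ⟨_, rfl⟩
  have hB0 : 0 < B := hB ▸ mul_pos (stripConst_pos n) (discPow_pos K n)
  have hnum : ‖poleFree K w - dedekindZeta_residue K‖ ≤
      102 * n * B * (1 + |v|) ^ (1 / 2 : ℝ) := by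
    refine (norm_sub_le _ _).trans ?_
    have h1 := norm_poleFree_le hn hK hu hu2 v
    have h2 := residue_le_strip hn hK
    rw [← hw, mul_assoc (96 * (n : ℝ)), ← hB] at h1
    rw [mul_assoc 6, ← hB] at h2
    rw [Complex.norm_real, Real.norm_of_nonneg (dedekindZeta_residue_pos K).le]
    have := Real.one_le_rpow (show 1 ≤ 1 + |v| by linarith [abs_nonneg v])
      (show (0 : ℝ) ≤ 1 / 2 by norm_num)
    nlinarith [mul_le_mul_of_nonneg_right (one_le_mul_of_one_le_of_one_le hn' this) hB0.le]
  refine (div_le_div₀ (by positivity) hnum (by positivity)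
    (mul_le_mul n0 n1 (by positivity) (norm_nonneg _))).trans ?_
  rw [tailConst, Real.rpow_sub (by positivity), Real.rpow_two, mul_assoc _ (stripConst n), ← hB]
  have hpos : 0 ≤ (n : ℝ) * B * (1 + |v|) ^ (1 / 2 : ℝ) / (1 + |v|) ^ 2 := by positivity
  calc 102 * n * B * (1 + |v|) ^ (1 / 2 : ℝ) / ((1 + |v|) / 3 * ((1 + |v|) / 3))
      = 918 * ((n : ℝ) * B * (1 + |v|) ^ (1 / 2 : ℝ) / (1 + |v|) ^ 2) := by field_simp; ring
    _ ≤ 1000 * ((n : ℝ) * B * (1 + |v|) ^ (1 / 2 : ℝ) / (1 + |v|) ^ 2) :=
        mul_le_mul_of_nonneg_right (by norm_num) hpos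
    _ = _ := by ring

end FA.IdealLandauCount

end
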